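import Fermat.Agent.LLw.Orb
import Fermat.Agent.ELoc.Frey
import Fermat.Agent.FrobE.Qbar
import Fermat.Agent.HGModule.S42Wiring
import Fermat.Agent.Emb1.Main
import Fermat.Agent.Frob.Exists
import Fermat.Agent.Final.Wire
import Fermat.Prelude.Def_FreyPackage_IsConductorLevel

/-!
# Level lowering at `p` for Frey curves, from the Jacobian form
-/

set_option autoImplicit false

noncomputable section

open WeierstrassCurve WeierstrassCurve.Affine WeierstrassCurve.Affine.Point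
open CuspForm ModularFormClass CongruenceSubgroup ModularCurve

namespace Fermat.Agent.LLw

open Fermat.Agent

local notation "Qb" => AlgebraicClosure ℚ
local notation "GQ" => (AlgebraicClosure ℚ ≃ₐ[ℚ] AlgebraicClosure ℚ)

/-- The Jacobian form of level lowering at `p`. -/
def MainJ : Prop := ∀ {N p : ℕ} [NeZero N] [NeZero (N * p)] [Fact p.Prime] (_ : ¬ p ∣ N)
    (_ : 13 < p) {E : Type} [AddCommGroup E] [Module (ZMod p) E] [DistribMulAction GQ E]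
    (_ : Module.finrank (ZMod p) E = 2)
    (_ : ∀ W : Submodule (ZMod p) E, (∀ g : GQ, ∀ x ∈ W, g • x ∈ W) → W = ⊥ ∨ W = ⊤)
    (KE : IntermediateField ℚ Qb) (_ : FiniteDimensional ℚ KE)
    (_ : ∀ σ : GQ, (∀ x ∈ KE, σ x = x) → ∀ v : E, σ • v = v)
    (S : Finset ℕ) (_ : p ∈ S) (_ : ∀ q : ℕ, q.Prime → q ∣ N * p → q ∈ S) (a : ℕ → ℤ)
    (_ : ∀ ℓ : ℕ, ℓ.Prime → ℓ ∉ S → ∀ A : ValuationSubring Qb, A.LiesOverPrime ℓ → ∀ τ : GQ,
      A.IsFrobeniusAt τ ℓ → ∀ v : E, τ • τ • v - a ℓ • (τ • v) + ℓ • v = 0)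
    {A : ValuationSubring Qb} (_ : A.LiesOverPrime p) {ζ : Qb} (_ : IsPrimitiveRoot ζ p) {e x : E}
    (_ : e ≠ 0) (_ : ∀ k : ℕ, x ≠ k • e)
    (_ : ∀ s ∈ A.inertiaSubgroupIn ℚ, ∀ k : ℕ, s ζ = ζ ^ k → s • e = k • e)
    (_ : ∀ s ∈ A.inertiaSubgroupIn ℚ, ∃ κ : ℕ, s • x = x + κ • e)
    (J₀ : Subgroup GQ) (β : Qb) (_ : ∀ s ∈ J₀, s • x = x)
    (_ : LLc.KHyp A p J₀ (A.valuation (ζ - 1)) β) {c : JZero (N * p)} (_ : c ≠ 0)
    (_ : p • c = 0)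
    (_ : ∀ (ℓ : ℕ) (hℓ : ℓ.Prime), ¬ ℓ ∣ N * p → ℓ ∉ S →
      heckeOperatorBar (N * p) ⟨ℓ, hℓ⟩ c = a ℓ • c),
    ∃ (f : CuspForm (Gamma0 N) 2) (𝔪 : Ideal (integralClosure ℤ ℂ)),
      f.IsNormalizedEigenform ∧ 𝔪.IsMaximal ∧ (p : integralClosure ℤ ℂ) ∈ 𝔪 ∧
      ∀ ℓ : ℕ, ℓ.Prime → ¬ ℓ ∣ N → ℓ ∉ S → ∃ b : integralClosure ℤ ℂ,
        (b : ℂ) = qCoeff f ℓ ∧ b - ((a ℓ : ℤ) : integralClosure ℤ ℂ) ∈ 𝔪

theorem integralModel_Δ_ne_zero (P : FreyPackage) {W : WeierstrassCurve ℤ}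
    (hW : W.IsIntegralModelOf P.freyCurve) : W.Δ ≠ 0 := by
  obtain ⟨C, hC⟩ := hW
  intro h
  have h1 : (C • P.freyCurve).Δ = 0 := by
    rw [hC, WeierstrassCurve.map_Δ, h, _root_.map_zero]
  have h2 : P.freyCurve.Δ ≠ 0 := (inferInstance : P.freyCurve.IsElliptic).isUnit.ne_zero
  rw [WeierstrassCurve.variableChange_Δ] at h1
  rcases mul_eq_zero.mp h1 with h3 | h3
  · exact (pow_ne_zero 12 (Units.ne_zero _)) h3
  · exact h2 h3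

/-- the torsion has dimension two -/
theorem finrank_frey (P : FreyPackage) [Fact P.p.Prime] :
    Module.finrank (ZMod P.p) (Submodule.torsionBy ℤ (P.freyCurve⁄Qb).Point P.p) = 2 := by
  have h1 : Nat.card (Submodule.torsionBy ℤ (P.freyCurve⁄Qb).Point P.p) = P.p ^ 2 := by
    rw [← ELoc.frey_card P P.pp.pos]
    refine Nat.card_congr (Equiv.subtypeEquivRight fun Q => ?_)
    rw [Submodule.mem_torsionBy_iff, natCast_zsmul]
  have hfin : Finite (Submodule.torsionBy ℤ (P.freyCurve⁄Qb).Point P.p) :=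
    Nat.finite_of_card_ne_zero (by rw [h1]; exact pow_ne_zero 2 P.hp0)
  have h2 := Module.natCard_eq_pow_finrank (K := ZMod P.p)
    (V := Submodule.torsionBy ℤ (P.freyCurve⁄Qb).Point P.p)
  rw [h1, Nat.card_zmod] at h2
  exact (Nat.pow_right_injective P.pp.two_le h2).symm

/-- **Level lowering at `p` for Frey curves**, for an arbitrary integral model. -/
theorem lower_of_mainJ (hJ : MainJ) (P : FreyPackage) (h13 : 13 < P.p) {W : WeierstrassCurve ℤ}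
    (hW : W.IsIntegralModelOf P.freyCurve) (hdvd : (P.p : ℤ) ∣ P.a * P.b * P.c)
    (hirr : GaloisRepIsIrreducible (K := AlgebraicClosure ℚ) ℚ P.freyCurve P.p)
    {N : ℕ} (hN : N ≠ 0) (hpN : ¬ P.p ∣ N) (f : CuspForm (Gamma0 (N * P.p)) 2)
    (𝔪 : Ideal (integralClosure ℤ ℂ)) (hf : f.IsNormalizedEigenform) (h𝔪 : 𝔪.IsMaximal)
    (hp𝔪 : (P.p : integralClosure ℤ ℂ) ∈ 𝔪)
    (hcong : ∀ ℓ : ℕ, ℓ.Prime → W.IsGoodPrimeFor ℓ → ¬ ℓ ∣ N * P.p → ℓ ≠ P.p →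
      ∃ a : integralClosure ℤ ℂ, (a : ℂ) = ModularFormClass.qCoeff f ℓ ∧
        a - ((W.apOfModel ℓ : ℤ) : integralClosure ℤ ℂ) ∈ 𝔪) :
    ∃ (f' : CuspForm (Gamma0 N) 2) (𝔪' : Ideal (integralClosure ℤ ℂ)),
      f'.IsNormalizedEigenform ∧ 𝔪'.IsMaximal ∧ (P.p : integralClosure ℤ ℂ) ∈ 𝔪' ∧
      ∀ ℓ : ℕ, ℓ.Prime → W.IsGoodPrimeFor ℓ → ¬ ℓ ∣ N → ℓ ≠ P.p →
        ∃ a : integralClosure ℤ ℂ, (a : ℂ) = ModularFormClass.qCoeff f' ℓ ∧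
          a - ((W.apOfModel ℓ : ℤ) : integralClosure ℤ ℂ) ∈ 𝔪' := by
  have hpF : Fact P.p.Prime := ⟨P.pp⟩
  have hp0 := P.hp0
  have hp2 : P.p ≠ 2 := by omega
  have : NeZero N := ⟨hN⟩
  have : NeZero P.p := ⟨hp0⟩
  have hNp : NeZero (N * P.p) := ⟨mul_ne_zero hN hp0⟩
  have hΔ := integralModel_Δ_ne_zero P hW
  set S : Finset ℕ := ((N * P.p).primeFactors ∪ W.Δ.natAbs.primeFactors) ∪ {P.p} with hS
  have hS1 : ∀ q : ℕ, q.Prime → q ∣ N * P.p → q ∈ S := fun q hq hqd => by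
    rw [hS]
    exact Finset.mem_union_left _ (Finset.mem_union_left _
      (Nat.mem_primeFactors.mpr ⟨hq, hqd, hNp.out⟩))
  have hSp : P.p ∈ S := by
    rw [hS]
    exact Finset.mem_union_right _ (Finset.mem_singleton_self _)
  have hS2 : ∀ ℓ : ℕ, ℓ.Prime → ℓ ∉ S → W.IsGoodPrimeFor ℓ ∧ ℓ ≠ P.p := by
    intro ℓ hℓ hℓS
    refine ⟨fun h => hℓS ?_, fun h => hℓS (h ▸ hSp)⟩
    rw [hS]
    refine Finset.mem_union_left _ (Finset.mem_union_right _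
      (Nat.mem_primeFactors.mpr ⟨hℓ, ?_, Int.natAbs_ne_zero.mpr hΔ⟩))
    exact Int.natCast_dvd.mp h
  have hS3 : ∀ ℓ : ℕ, ℓ.Prime → W.IsGoodPrimeFor ℓ → ¬ ℓ ∣ N → ℓ ≠ P.p → ℓ ∉ S := by
    intro ℓ hℓ hg hℓN hℓp hmem
    rw [hS, Finset.mem_union, Finset.mem_union, Nat.mem_primeFactors, Nat.mem_primeFactors,
      Finset.mem_singleton] at hmem
    rcases hmem with (⟨-, h, -⟩ | ⟨-, h, -⟩) | h
    · rcases hℓ.dvd_mul.mp h with h | h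
      · exact hℓN h
      · exact hℓp ((Nat.prime_dvd_prime_iff_eq hℓ P.pp).mp h)
    · exact hg (Int.natCast_dvd.mpr h)
    · exact hℓp h
  -- the class in the Jacobian
  obtain ⟨c, hc0, hpc, hcT⟩ := Emb1.exists_class_of_eigenform (S := (↑S : Set ℕ)) (p := P.p)
    (fun q hq hqd => Finset.mem_coe.mpr (hS1 q hq hqd)) f hf 𝔪 h𝔪 hp𝔪
    (fun ℓ => W.apOfModel ℓ) (fun ℓ hℓ hℓN hℓS => by
      obtain ⟨hg, hℓp⟩ := hS2 ℓ hℓ (fun h => hℓS (Finset.mem_coe.mpr h))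
      exact hcong ℓ hℓ hg hℓN hℓp)
  -- the place and the root of unity
  obtain ⟨A, hA⟩ := Frob.exists_liesOverPrime Qb P.pp
  obtain ⟨ζ, hζ⟩ := HasEnoughRootsOfUnity.exists_primitiveRoot Qb P.p
  -- the local structure
  obtain ⟨e, x, he, hx, -, hI, u, hu, hux, hu'⟩ := ELoc.frey_eloc P hA hdvd hζ
  have htors : ∀ y : Submodule.torsionBy ℤ (P.freyCurve⁄Qb).Point P.p, P.p • y = 0 := by
    intro y
    apply Subtype.ext
    have h1 := (Submodule.mem_torsionBy_iff _ _).mp y.2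
    rw [natCast_zsmul] at h1
    exact h1
  obtain ⟨x', J₀, β, -, hJx, hx', hIx', H⟩ := exists_good_basis hp2 hA hζ (htors e) (htors x) he hx
    (fun s hs k hk => (hI s hs).1 k hk) (fun s hs => (hI s hs).2) hu hux hu'
  -- the level
  obtain ⟨KE, hKE, hKE'⟩ := HGModule.frey_level P
  obtain ⟨f', 𝔪', h1, h2, h3, h4⟩ := hJ hpN h13 (finrank_frey P)
    (fun W₁ hW₁ => hirr.2 W₁ (fun σ y hy => hW₁ σ y hy)) KE hKE
    (fun σ hσ v => by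
      have h5 := LinearMap.congr_fun (hKE' σ hσ) v
      exact h5) S hSp hS1
    (fun ℓ => W.apOfModel ℓ) (fun ℓ hℓ hℓS B hB τ hτ v => by
      obtain ⟨hg, hℓp⟩ := hS2 ℓ hℓ hℓS
      have h5 := FrobE.frob_char_torsion P.freyCurve hW hℓ hg hB hτ
        (P.pp.odd_of_ne_two hp2) (fun h => hℓp ((Nat.prime_dvd_prime_iff_eq hℓ P.pp).mp h)) v
      rw [natCast_zsmul] at h5
      exact h5)
    hA hζ he hx' (fun s hs k hk => (hI s hs).1 k hk) hIx' J₀ β hJx H hc0 hpc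
    (fun ℓ hℓ hℓN hℓS => hcT ℓ hℓ hℓN (fun h => hℓS (Finset.mem_coe.mp h)))
  exact ⟨f', 𝔪', h1, h2, h3, fun ℓ hℓ hg hℓN hℓp => h4 ℓ hℓ hℓN (hS3 ℓ hℓ hg hℓN hℓp)⟩

/-- the divisibility `p ∣ abc` from bad reduction at `p` -/
theorem dvd_abc_of_dvd_Δ (P : FreyPackage) (h : (P.p : ℤ) ∣ P.freyCurveInt.Δ) :
    (P.p : ℤ) ∣ P.a * P.b * P.c := by
  have hpZ : Prime (P.p : ℤ) := Int.prime_iff_natAbs_prime.mpr (by simpa using P.pp)
  have h1 : (P.p : ℤ) ∣ (P.a ^ P.p * P.b ^ P.p * P.c ^ P.p) ^ 2 := by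
    rw [← Final.Δ_eq]
    exact Dvd.dvd.mul_left h 256
  have h2 := hpZ.dvd_of_dvd_pow h1
  rw [← mul_pow, ← mul_pow] at h2
  exact hpZ.dvd_of_dvd_pow h2

/-- `Final.LoweringAtPFrey` -/
theorem loweringAtPFrey_of (hJ : MainJ) : Final.LoweringAtPFrey := by
  intro P h17 hirr M hM hpM hbad hres
  obtain ⟨k, rfl⟩ := hpM
  have hMs := hM.1
  have hk0 : k ≠ 0 := by
    rintro rfl
    exact hMs.ne_zero (mul_zero _)
  have hpk : ¬ P.p ∣ k := by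
    rintro ⟨j, rfl⟩
    have h2 : P.p * P.p ∣ P.p * (P.p * j) := ⟨j, by ring⟩
    exact P.pp.one_lt.ne' (Nat.isUnit_iff.mp (hMs P.p h2))
  rw [Nat.mul_div_cancel_left k P.pp.pos]
  have hirr' : GaloisRepIsIrreducible (K := AlgebraicClosure ℚ) ℚ P.freyCurve P.p := by
    unfold WeierstrassCurve.ModRepIsIrreducible at hirr
    rwa [Final.map_eq] at hirr
  rw [mul_comm] at hres
  obtain ⟨f, 𝔪, hf, h𝔪, hp𝔪, hcong⟩ := hres
  obtain ⟨f', 𝔪', h1, h2, h3, h4⟩ := lower_of_mainJ hJ P (by omega) (Final.isIntegralModelOf P)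
    (dvd_abc_of_dvd_Δ P hbad) hirr' hk0 hpk f 𝔪 hf h𝔪 hp𝔪 hcong
  exact ⟨f', 𝔪', h1, h2, h3, h4⟩

/-- the statement of `S44` -/
theorem s44_of (hJ : MainJ) (P : FreyPackage) {N : ℕ} (hcond : P.IsConductorLevel N)
    (hpN : P.p ∣ N)
    (hirr : GaloisRepIsIrreducible (K := AlgebraicClosure ℚ) ℚ P.freyCurve P.p)
    (hmod : P.ModularRepOfLevel N) : ∃ M : ℕ, M ∣ N ∧ ¬ P.p ∣ M ∧ P.ModularRepOfLevel M := by
  have h17 := KummerFLT.frey_seventeen_le P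
  obtain ⟨k, rfl⟩ := hpN
  have hk0 : k ≠ 0 := by
    rintro rfl
    exact hcond.squarefree.ne_zero (mul_zero _)
  have hpk : ¬ P.p ∣ k := by
    rintro ⟨j, rfl⟩
    have h2 : P.p * P.p ∣ P.p * (P.p * j) := ⟨j, by ring⟩
    exact P.pp.one_lt.ne' (Nat.isUnit_iff.mp (hcond.squarefree P.p h2))
  have hdvd := hcond.p_dvd_abc (dvd_mul_right _ _)
  refine ⟨k, dvd_mul_left _ _, hpk, ?_⟩
  rw [mul_comm] at hmod
  obtain ⟨f, W, 𝔪, hf, hW, h𝔪, hp𝔪, hcong⟩ := hmod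
  obtain ⟨f', 𝔪', h1, h2, h3, h4⟩ := lower_of_mainJ hJ P (by omega) hW hdvd hirr hk0 hpk f 𝔪 hf h𝔪
    hp𝔪 hcong
  exact ⟨f', W, 𝔪', h1, hW, h2, h3, h4⟩

end Fermat.Agent.LLw
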