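import Fermat.Agent.LLu.Efin
import Fermat.Agent.PIC.CharP

/-!
# The residue of a function with divisor `p D`: an unramified class of order `p` modulo `p`, or
`D` is Eisenstein
-/

set_option autoImplicit false
set_option maxHeartbeats 400000
set_option linter.unusedSectionVars false

noncomputable section

open HahnSeries ModularCurve AlgebraicCurve

attribute [-instance] Fermat.Agent.X0Places.ffField Fermat.Agent.X0Places.ffAlgebra

namespace Fermat.Agent.LLw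

open Fermat.Agent.FunField Fermat.Agent.FunField.PlaceLemmas
open Fermat.Agent.MzCusp (uL)
open Fermat.Agent.HeckeRed Fermat.Agent.ModPoly Fermat.Agent.ModDeg Fermat.Agent.Igusa
  Fermat.Agent.BadRed Fermat.Agent.LLu

section Abs

variable {κ F : Type*} [Field κ] [IsAlgClosed κ] [Field F] [Algebra κ F] [IsFF κ F]

/-- The class of `div(f)/p`. -/
theorem exists_class {p : ℕ} (hp : p.Prime) {fb : F} (hfb0 : fb ≠ 0)
    (hnp : ∀ (c : κ) (b : F), fb ≠ c • b ^ p) {B : Divisor κ F}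
    (hB : (divOf fb : Divisor κ F) = (p : ℤ) • B) :
    ∃ hdeg : B ∈ Divisor.degZero (K := κ) (F := F),
      (Pic0.mk ⟨B, hdeg⟩ : Pic0 κ F) ≠ 0 ∧ p • (Pic0.mk ⟨B, hdeg⟩ : Pic0 κ F) = 0 := by
  have hp0 : (p : ℤ) ≠ 0 := by exact_mod_cast hp.ne_zero
  have hdeg : B ∈ Divisor.degZero (K := κ) (F := F) := by
    rw [Divisor.mem_degZero]
    have h1 : Divisor.degree (divOf fb : Divisor κ F) = 0 := degree_divOf fb
    rw [hB, map_zsmul, smul_eq_mul] at h1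
    exact (mul_eq_zero.mp h1).resolve_left hp0
  refine ⟨hdeg, fun h => ?_, ?_⟩
  · rw [TorsInj.pic0_mk_eq_zero_iff] at h
    obtain ⟨b, hb, hb'⟩ := h
    have h1 : B = divOf b := Finsupp.ext fun v => (hb' v).trans (divOf_apply _ _).symm
    have h2 : (divOf fb : Divisor κ F) = divOf (b ^ p) := by
      rw [hB, h1, TorsInj.divOf_pow, natCast_zsmul]
    obtain ⟨c, -, hc⟩ := exists_const_of_divOf_eq hfb0 (pow_ne_zero p hb) h2
    exact hnp c b (by rw [hc, Algebra.smul_def])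
  · have h1 : p • (Pic0.mk ⟨B, hdeg⟩ : Pic0 κ F) = Pic0.mk (p • ⟨B, hdeg⟩) := by
      exact (map_nsmul (QuotientAddGroup.mk' _) p _).symm
    rw [h1, TorsInj.pic0_mk_eq_zero_iff]
    refine ⟨fb, hfb0, fun v => ?_⟩
    have h2 := congrArg (fun D : Divisor κ F => D v) hB
    rw [divOf_apply] at h2
    rw [h2]
    change (p • B) v = ((p : ℤ) • B) v
    rw [natCast_zsmul]

theorem mk_zsmul' (a : ℤ) (x : Divisor.degZero (K := κ) (F := F)) :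
    a • (Pic0.mk x : Pic0 κ F) = Pic0.mk (a • x) := rfl

theorem mk_sub' (x y : Divisor.degZero (K := κ) (F := F)) :
    (Pic0.mk x : Pic0 κ F) - Pic0.mk y = Pic0.mk (x - y) := rfl

end Abs

variable (A : ValuationSubring (AlgebraicClosure ℚ)) {κ : Type*} [Field κ] [IsAlgClosed κ]
  (π : A →+* κ) [IsLocalHom π] (hπ : Function.Surjective π) (harch : ArchA π)
  (N p : ℕ) [hp : Fact p.Prime] [hN : NeZero N] [CharP κ p] (hpN : ¬ p ∣ N)

local notation "Qb" => AlgebraicClosure ℚ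

include hπ harch hpN in
/-- **[EFIN]** -/
theorem efin {E : IntermediateField Qb (LaurentSeries Qb)} [IsFF Qb E]
    (hE : E = modularFunctionFieldFullC Qb (N * p)) {D : Divisor Qb E} {f : E}
    (hf : (f : LaurentSeries Qb) ∈ gaussRing A π) (hfD : (divOf f : Divisor Qb E) = (p : ℤ) • D)
    (fb ub : modularFunctionFieldFullC κ N)
    (hfb : (fb : LaurentSeries κ) = gaussRes A π ⟨f, hf⟩) (hfb0 : fb ≠ 0)
    (hnp : ∀ (c : κ) (b : modularFunctionFieldFullC κ N), fb ≠ c • b ^ p)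
    (hub : (ub : LaurentSeries κ) = uL κ p) {j₀ : ℤ}
    (h1 : ∀ v : Place κ (modularFunctionFieldFullC κ N), 0 ≤ v.ord (HeckeRed.jF κ N) →
      (p : ℤ) ∣ v.ord fb - j₀ * v.ord ub)
    (h2 : ∀ v : Place κ (modularFunctionFieldFullC κ N), v.ord (HeckeRed.jF κ N) < 0 →
      (p : ℤ) ∣ v.ord fb)
    (S : Set ℕ) (hpS : p ∈ S) (hS : ∀ q : ℕ, q.Prime → q ∣ N → q ∈ S) (a : ℕ → ℤ)
    (hT : ∀ ℓ : ℕ, ∀ hℓ : ℓ.Prime, ℓ ∉ S → haveI : NeZero ℓ := ⟨hℓ.ne_zero⟩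
      ∃ (E' : IntermediateField Qb (LaurentSeries Qb)) (_ : IsFF Qb E')
        (_ : E' = modularFunctionFieldFullC Qb (N * p * ℓ)) (α β : E →ₐ[Qb] E')
        (hβi : β.toRingHom.IsIntegral) (hαi : α.toRingHom.IsIntegral),
        (∀ x, (α x : LaurentSeries Qb) = x) ∧
        (∀ x, (β x : LaurentSeries Qb) = qExpand Qb ℓ (x : LaurentSeries Qb)) ∧
        ∃ h : E, h ≠ 0 ∧ Divisor.correspondence β α hβi hαi D = a ℓ • D + divOf h) :
    (∀ ℓ : ℕ, ℓ.Prime → ℓ ∉ S → (p : ℤ) ∣ a ℓ - (ℓ + 1)) ∨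
      ∃ c : Pic0 κ (modularFunctionFieldFullC κ N), c ≠ 0 ∧ p • c = 0 ∧
        ∀ (ℓ : ℕ) (_ : ℓ.Prime) [NeZero ℓ], ¬ ℓ ∣ N → ℓ ∉ S → PIC.heckeC κ N ℓ c = a ℓ • c := by
  let ι : Qb →+* ℂ := (IsAlgClosed.lift : Qb →ₐ[ℚ] ℂ)
  have hpZ : Prime (p : ℤ) := Nat.prime_iff_prime_int.mp hp.out
  have hlκ : ∀ ℓ : ℕ, ℓ.Prime → ℓ ≠ p → ((N * ℓ : ℕ) : κ) ≠ 0 := by
    intro ℓ hℓ hℓp
    rw [Ne, CharP.cast_eq_zero_iff κ p, hp.out.dvd_mul]
    rintro (h | h)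
    · exact hpN h
    · exact hℓp ((Nat.prime_dvd_prime_iff_eq hp.out hℓ).mp h).symm
  -- the Hecke relation on the residue
  have key : ∀ (ℓ : ℕ) (hℓ : ℓ.Prime), ℓ ∉ S → haveI : NeZero ℓ := ⟨hℓ.ne_zero⟩
      ∃ hb : modularFunctionFieldFullC κ N, hb ≠ 0 ∧
        Divisor.correspondence (beta1 κ N ℓ) (alpha1 κ N ℓ) (HeckeRed.isIntegral_of_isFF (beta1 κ N ℓ))
          (HeckeRed.isIntegral_of_isFF (alpha1 κ N ℓ)) (divOf fb) =
          a ℓ • (divOf fb : Divisor κ (modularFunctionFieldFullC κ N)) + (p : ℤ) • divOf hb := by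
    intro ℓ hℓ hℓS
    have hne : NeZero ℓ := ⟨hℓ.ne_zero⟩
    have hfact : Fact ℓ.Prime := ⟨hℓ⟩
    have hℓp : ℓ ≠ p := fun h => hℓS (h ▸ hpS)
    obtain ⟨E', iE', hE', α, β, hβi, hαi, hα, hβ, h, hh, hTD⟩ := hT ℓ hℓ hℓS
    exact hres A π hπ harch N p hpN hℓp (hlκ ℓ hℓ hℓp) hE hE' rfl rfl α β (alpha1 κ N ℓ)
      (beta1 κ N ℓ) hα hβ (coe_alpha1 κ N ℓ) (coe_beta1 κ N ℓ) hβi hαi (HeckeRed.isIntegral_of_isFF _)
      (HeckeRed.isIntegral_of_isFF _) hf fb hfb hfb0 hfD hh hTD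
  -- the divisible case
  have hdiv : ∀ j₁ : ℤ, (p : ℤ) ∣ j₁ →
      (∀ v : Place κ (modularFunctionFieldFullC κ N), 0 ≤ v.ord (HeckeRed.jF κ N) →
        (p : ℤ) ∣ v.ord fb - j₁ * v.ord ub) →
      ∃ c : Pic0 κ (modularFunctionFieldFullC κ N), c ≠ 0 ∧ p • c = 0 ∧
        ∀ (ℓ : ℕ) (_ : ℓ.Prime) [NeZero ℓ], ¬ ℓ ∣ N → ℓ ∉ S →
          PIC.heckeC κ N ℓ c = a ℓ • c := by
    intro j₁ hj₁ h1'
    obtain ⟨B, hB⟩ := exists_divOf_eq_smul (fb := fb) (ub := ub) (j := HeckeRed.jF κ N) hp.out hj₁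
      h1' h2
    obtain ⟨hdeg, hc1, hc2⟩ := exists_class hp.out hfb0 hnp hB
    refine ⟨_, hc1, hc2, fun ℓ hℓ _ hℓN hℓS => ?_⟩
    have hfact : Fact ℓ.Prime := ⟨hℓ⟩
    obtain ⟨hb, hb0, h3⟩ := key ℓ hℓ hℓS
    have h4 := correspondence_of_smul (alpha1 κ N ℓ) (beta1 κ N ℓ)
      (HeckeRed.isIntegral_of_isFF (beta1 κ N ℓ)) (HeckeRed.isIntegral_of_isFF (alpha1 κ N ℓ))
      hp.out hB h3
    rw [PIC.heckeC, Pic0.correspondence_mk]
    have h5 : a ℓ • (Pic0.mk ⟨B, hdeg⟩ : Pic0 κ (modularFunctionFieldFullC κ N)) =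
        Pic0.mk (a ℓ • ⟨B, hdeg⟩) := mk_zsmul' _ _
    rw [h5, ← sub_eq_zero, mk_sub', TorsInj.pic0_mk_eq_zero_iff]
    refine ⟨hb, hb0, fun v => ?_⟩
    have h7 := congrArg (fun D : Divisor κ (modularFunctionFieldFullC κ N) => D v) h4
    change (Divisor.correspondence (beta1 κ N ℓ) (alpha1 κ N ℓ)
      (HeckeRed.isIntegral_of_isFF (beta1 κ N ℓ)) (HeckeRed.isIntegral_of_isFF (alpha1 κ N ℓ)) B -
      a ℓ • B) v = _
    rw [Finsupp.sub_apply]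
    refine (sub_eq_iff_eq_add'.mpr h7).trans ?_
    exact divOf_apply _ _
  by_cases h3 : ∃ v : Place κ (modularFunctionFieldFullC κ N),
      0 ≤ v.ord (HeckeRed.jF κ N) ∧ ¬ (p : ℤ) ∣ v.ord ub
  · by_cases hj : (p : ℤ) ∣ j₀
    · exact Or.inr (hdiv j₀ hj h1)
    · left
      intro ℓ hℓ hℓS
      have hne : NeZero ℓ := ⟨hℓ.ne_zero⟩
      have hfact : Fact ℓ.Prime := ⟨hℓ⟩
      have hℓp : ℓ ≠ p := fun h => hℓS (h ▸ hpS)
      have hℓN : ¬ ℓ ∣ N := fun h => hℓS (hS ℓ hℓ h)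
      obtain ⟨hb, hb0, h4⟩ := key ℓ hℓ hℓS
      have hu := correspondence_ub ι A π hπ harch N p hpN hℓp hℓN rfl rfl (alpha1 κ N ℓ)
        (beta1 κ N ℓ) (coe_alpha1 κ N ℓ) (coe_beta1 κ N ℓ) (HeckeRed.isIntegral_of_isFF _)
        (HeckeRed.isIntegral_of_isFF _) ub hub
      have h5 := dvd_of_hecke (alpha1 κ N ℓ) (beta1 κ N ℓ) (coe_alpha1 κ N ℓ) (coe_beta1 κ N ℓ)
        (HeckeRed.isIntegral_of_isFF _) (HeckeRed.isIntegral_of_isFF _) (j := HeckeRed.jF κ N) rfl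
        hp.out h1 h3 h4 hu
      exact (hpZ.dvd_or_dvd h5).resolve_left hj
  · right
    push Not at h3
    refine hdiv 0 (dvd_zero _) fun v hv => ?_
    rw [zero_mul, sub_zero]
    have h4 := h1 v hv
    exact (dvd_sub_left ((h3 v hv).mul_left _)).mp h4

end Fermat.Agent.LLw

end
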