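import Fermat.Agent.LLc.RatQb
import Fermat.Agent.Frob.QbarInst

/-!
# A good basis vector for the local structure at `p`
-/

set_option autoImplicit false

namespace Fermat.Agent.LLw

open Fermat.Agent

local notation "Qb" => AlgebraicClosure ℚ
local notation "GQ" => (AlgebraicClosure ℚ ≃ₐ[ℚ] AlgebraicClosure ℚ)

section Mod

variable {E : Type} [AddCommGroup E] {p : ℕ} [hp : Fact p.Prime] {e : E}

theorem addOrderOf_e (hpe : p • e = 0) (he : e ≠ 0) : addOrderOf e = p :=
  addOrderOf_eq_prime hpe he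

theorem smul_e_eq_zero (hpe : p • e = 0) (he : e ≠ 0) {k : ℕ} : k • e = 0 ↔ (k : ZMod p) = 0 := by
  rw [← addOrderOf_dvd_iff_nsmul_eq_zero, addOrderOf_e hpe he, ZMod.natCast_eq_zero_iff]

theorem smul_e_congr (hpe : p • e = 0) {k l : ℕ} (h : (k : ZMod p) = l) : k • e = l • e := by
  have h1 : k ≡ l [MOD p] := (ZMod.natCast_eq_natCast_iff _ _ _).mp h
  have h2 : ∀ m : ℕ, m • e = (m % p) • e := by
    intro m
    conv_lhs => rw [← Nat.div_add_mod m p]
    rw [add_smul, mul_comm, mul_smul, hpe, smul_zero, zero_add]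
  rw [h2 k, h2 l, h1]

end Mod

variable {p : ℕ} [hp : Fact p.Prime] {A : ValuationSubring Qb} {ζ : Qb} {E : Type} [AddCommGroup E]
  [DistribMulAction GQ E] {e x : E}

/-- **[ORB]** -/
theorem exists_good_basis (hp2 : p ≠ 2) (hA : A.LiesOverPrime p) (hζ : IsPrimitiveRoot ζ p)
    (hpe : p • e = 0) (hpx : p • x = 0) (he : e ≠ 0) (hx : ∀ k : ℕ, x ≠ k • e)
    (hIe : ∀ s ∈ A.inertiaSubgroupIn ℚ, ∀ k : ℕ, s ζ = ζ ^ k → s • e = k • e)
    (hIx : ∀ s ∈ A.inertiaSubgroupIn ℚ, ∃ κ : ℕ, s • x = x + κ • e) {u : Qb}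
    (hu : A.valuation u = 1) (hux : ∀ s : GQ, s • x = x → s u = u)
    (hu' : ∀ s ∈ A.inertiaSubgroupIn ℚ, s • x ≠ x →
      A.valuation (s u / u - 1) = A.valuation (ζ - 1)) :
    ∃ (x' : E) (J₀ : Subgroup GQ) (β : Qb), p • x' = 0 ∧ (∀ s ∈ J₀, s • x' = x') ∧
      (∀ k : ℕ, x' ≠ k • e) ∧ (∀ s ∈ A.inertiaSubgroupIn ℚ, ∃ κ : ℕ, s • x' = x' + κ • e) ∧
      LLc.KHyp A p J₀ (A.valuation (ζ - 1)) β := by
  have hpp := hp.out
  have hu0 : u ≠ 0 := by
    rintro rfl
    rw [map_zero] at hu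
    exact zero_ne_one hu
  by_cases hcase : ∃ s ∈ A.inertiaSubgroupIn ℚ, s • e = e ∧ s • x ≠ x
  · obtain ⟨s₁, hs₁, hs₁e, hs₁x⟩ := hcase
    refine ⟨x, A.inertiaSubgroupIn ℚ ⊓ MulAction.stabilizer GQ x, u, hpx,
      fun s hs => hs.2, hx, hIx, ?_⟩
    refine ⟨hpp, hp2, hA, inf_le_left, ?_, hu, fun s hs => hux s hs.2, ?_, ?_⟩
    · rw [Subgroup.inf_relIndex_left]
      -- the orbit of `x` under inertia
      have h1 : (MulAction.stabilizer GQ x).relIndex (A.inertiaSubgroupIn ℚ) =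
          (MulAction.orbit (A.inertiaSubgroupIn ℚ) x).ncard := by
        rw [← MulAction.index_stabilizer, Subgroup.relIndex]
        congr 1
      rw [h1]
      -- powers of `s₁`
      obtain ⟨κ, hκ⟩ := hIx s₁ hs₁
      have hκ0 : (κ : ZMod p) ≠ 0 := by
        intro h
        apply hs₁x
        rw [hκ, (smul_e_eq_zero hpe he).mpr h, add_zero]
      have hpow : ∀ j : ℕ, s₁ ^ j • x = x + (j * κ) • e := by
        intro j
        induction j with
        | zero => simp
        | succ j ih =>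
          rw [pow_succ', mul_smul, ih, smul_add, hκ, smul_comm s₁ (j * κ) e, hs₁e, add_mul,
            one_mul, add_smul, add_assoc, add_comm (κ • e)]
      have h2 : MulAction.orbit (A.inertiaSubgroupIn ℚ) x =
          Set.range (fun k : ZMod p => x + k.val • e) := by
        ext y
        constructor
        · rintro ⟨⟨s, hs⟩, rfl⟩
          obtain ⟨μ, hμ⟩ := hIx s hs
          refine ⟨(μ : ZMod p), ?_⟩
          show x + ((μ : ZMod p)).val • e = s • x
          rw [hμ]
          congr 1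
          apply smul_e_congr hpe
          rw [ZMod.natCast_zmod_val]
        · rintro ⟨k, rfl⟩
          refine ⟨⟨s₁ ^ (k * (κ : ZMod p)⁻¹).val, Subgroup.pow_mem _ hs₁ _⟩, ?_⟩
          show s₁ ^ (k * (κ : ZMod p)⁻¹).val • x = x + k.val • e
          rw [hpow]
          congr 1
          apply smul_e_congr hpe
          rw [Nat.cast_mul, ZMod.natCast_zmod_val, ZMod.natCast_zmod_val, mul_assoc,
            inv_mul_cancel₀ hκ0, mul_one]
      have h3 : Function.Injective (fun k : ZMod p => x + k.val • e) := by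
        intro k l hkl
        have h4 : k.val • e = l.val • e := add_left_cancel hkl
        have h5 : (k.val + (p - 1) * l.val) • e = 0 := by
          rw [add_smul, mul_smul, h4]
          have h6 : (p - 1) • l.val • e = (p - 1) • l.val • e := rfl
          have h7 : l.val • e + (p - 1) • l.val • e = (1 + (p - 1)) • l.val • e := by
            rw [add_smul, one_smul]
          rw [h7, Nat.add_sub_cancel' hpp.one_lt.le, smul_comm, hpe, smul_zero]
        rw [smul_e_eq_zero hpe he] at h5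
        push_cast [Nat.cast_sub hpp.one_lt.le] at h5
        rw [ZMod.natCast_self, ZMod.natCast_zmod_val, ZMod.natCast_zmod_val] at h5
        have h8 : k - l = 0 := by linear_combination h5
        exact sub_eq_zero.mp h8
      rw [h2, ← Set.image_univ, Set.ncard_image_of_injective _ h3, Set.ncard_univ, Nat.card_zmod]
    · intro s hs
      by_cases hsx : s • x = x
      · rw [hux s hsx, div_self hu0, sub_self, map_zero]
        exact zero_le
      · exact (hu' s hs hsx).le
    · intro s hs hsJ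
      exact hu' s hs fun h => hsJ ⟨hs, h⟩
  · push Not at hcase
    have : NeZero p := ⟨hpp.ne_zero⟩
    have hζA : ζ ∈ A := by
      rw [← A.valuation_le_one_iff]
      have h1 : A.valuation ζ ^ p = 1 := by rw [← map_pow, hζ.pow_eq_one, map_one]
      exact (pow_eq_one_iff_of_nonneg zero_le hpp.ne_zero).mp h1 |>.le
    obtain ⟨s₀, hs₀, hs₀ζ⟩ := LLc.exists_inertia_ne hpp hp2 hA (ζ := ⟨ζ, hζA⟩) hζ
    have hroot : ∀ s : GQ, ∃ k : ℕ, s ζ = ζ ^ k := by
      intro s
      obtain ⟨k, -, hk⟩ := hζ.eq_pow_of_pow_eq_one (ξ := s ζ) (by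
        rw [← map_pow, hζ.pow_eq_one, map_one])
      exact ⟨k, hk.symm⟩
    obtain ⟨k₀, hk₀⟩ := hroot s₀
    have hk1 : ((k₀ : ZMod p) - 1) ≠ 0 := by
      intro h
      apply hs₀ζ
      have h1 : ((k₀ : ℕ) : ZMod p) = ((1 : ℕ) : ZMod p) := by
        push_cast
        linear_combination h
      have h2 : k₀ ≡ 1 [MOD p] := (ZMod.natCast_eq_natCast_iff _ _ _).mp h1
      show s₀ ζ = ζ
      rw [hk₀]
      conv_rhs => rw [← pow_one ζ]
      exact pow_eq_pow_of_modEq h2 hζ.pow_eq_one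
    have he₀ := hIe s₀ hs₀ k₀ hk₀
    obtain ⟨κ₀, hκ₀⟩ := hIx s₀ hs₀
    set c : ℕ := (-(κ₀ : ZMod p) * ((k₀ : ZMod p) - 1)⁻¹).val with hc
    have hcc : (c : ZMod p) = -(κ₀ : ZMod p) * ((k₀ : ZMod p) - 1)⁻¹ := by
      rw [hc, ZMod.natCast_zmod_val]
    set x' : E := x + c • e with hx'
    have hs₀x' : s₀ • x' = x' := by
      rw [hx', smul_add, smul_comm s₀ c e, he₀, hκ₀, smul_smul, add_assoc, ← add_smul]
      congr 1
      apply smul_e_congr hpe
      push_cast
      rw [hcc]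
      field_simp
      ring
    have hIx' : ∀ s ∈ A.inertiaSubgroupIn ℚ, ∃ κ : ℕ, s • x' = x' + κ • e := by
      intro s hs
      obtain ⟨κ, hκ⟩ := hIx s hs
      obtain ⟨k, hk⟩ := hroot s
      refine ⟨κ + c * k + c * (p - 1), ?_⟩
      rw [hx', smul_add, smul_comm s c e, hIe s hs k hk, hκ, smul_smul, add_assoc, add_assoc,
        ← add_smul, ← add_smul]
      congr 1
      apply smul_e_congr hpe
      push_cast [Nat.cast_sub hpp.one_lt.le]
      rw [ZMod.natCast_self]
      ring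
    have hfix : ∀ s ∈ A.inertiaSubgroupIn ℚ, s • x' = x' := by
      intro s hs
      -- the commutator fixes `x'`
      have hg : s * s₀ * s⁻¹ * s₀⁻¹ ∈ A.inertiaSubgroupIn ℚ :=
        mul_mem (mul_mem (mul_mem hs hs₀) (inv_mem hs)) (inv_mem hs₀)
      have hgζ : (s * s₀ * s⁻¹ * s₀⁻¹) ζ = ζ ^ 1 := by
        obtain ⟨a, ha⟩ := hroot s⁻¹
        obtain ⟨b, hb⟩ := hroot s₀⁻¹
        have h1 : (s * s₀ * s⁻¹ * s₀⁻¹) ζ = s (s₀ (s⁻¹ (s₀⁻¹ ζ))) := rfl
        have h2 : s⁻¹ (s₀⁻¹ ζ) = s₀⁻¹ (s⁻¹ ζ) := by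
          rw [hb, map_pow, ha, map_pow, hb, ← pow_mul, ← pow_mul, mul_comm]
        have h3 : s₀ (s₀⁻¹ (s⁻¹ ζ)) = s⁻¹ ζ := by
          rw [← AlgEquiv.mul_apply, mul_inv_cancel, AlgEquiv.one_apply]
        have h4 : s (s⁻¹ ζ) = ζ := by
          rw [← AlgEquiv.mul_apply, mul_inv_cancel, AlgEquiv.one_apply]
        rw [h1, h2, h3, h4, pow_one]
      have hge := hIe _ hg 1 hgζ
      rw [one_smul] at hge
      have hgx := hcase _ hg hge
      have hgx' : (s * s₀ * s⁻¹ * s₀⁻¹) • x' = x' := by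
        rw [hx', smul_add, smul_comm _ c e, hge, hgx]
      have h5 : s₀⁻¹ • x' = x' := by
        rw [inv_smul_eq_iff, hs₀x']
      rw [mul_smul, h5, mul_smul, mul_smul] at hgx'
      have h6 : s₀ • s⁻¹ • x' = s⁻¹ • x' := by
        rw [← smul_eq_iff_eq_inv_smul, hgx']
      obtain ⟨μ, hμ⟩ := hIx' s⁻¹ (inv_mem hs)
      rw [hμ, smul_add, hs₀x', smul_comm s₀ μ e, he₀, smul_smul] at h6
      have h7 := add_left_cancel h6
      have h8 : (μ * k₀ + (p - 1) * μ) • e = 0 := by
        rw [add_smul, h7, ← add_smul]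
        have h9 : μ + (p - 1) * μ = μ * p := by
          have := hpp.one_lt
          obtain ⟨q, rfl⟩ : ∃ q, p = q + 1 := ⟨p - 1, by omega⟩
          simp only [Nat.add_sub_cancel]
          ring
        rw [h9, mul_smul, hpe, smul_zero]
      rw [smul_e_eq_zero hpe he] at h8
      push_cast [Nat.cast_sub hpp.one_lt.le] at h8
      rw [ZMod.natCast_self] at h8
      have h10 : (μ : ZMod p) * ((k₀ : ZMod p) - 1) = 0 := by linear_combination h8
      have h11 : (μ : ZMod p) = 0 := (mul_eq_zero.mp h10).resolve_right hk1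
      rw [(smul_e_eq_zero hpe he).mpr h11, add_zero] at hμ
      rw [← hμ, smul_inv_smul]
      exact hμ.symm
    refine ⟨x', A.inertiaSubgroupIn ℚ, 1, ?_, hfix, ?_, fun s hs => ⟨0, by
      rw [zero_smul, add_zero]; exact hfix s hs⟩, ?_⟩
    · rw [hx', smul_add, hpx, smul_comm, hpe, smul_zero, add_zero]
    · intro k hk
      apply hx (k + c * (p - 1))
      have h1 : x = x' + (c * (p - 1)) • e := by
        rw [hx', add_assoc, ← add_smul]
        have h2 : c + c * (p - 1) = c * p := by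
          have := hpp.one_lt
          obtain ⟨q, rfl⟩ : ∃ q, p = q + 1 := ⟨p - 1, by omega⟩
          simp only [Nat.add_sub_cancel]
          ring
        rw [h2, mul_smul, hpe, smul_zero, add_zero]
      rw [h1, hk, ← add_smul]
    · refine ⟨hpp, hp2, hA, le_rfl, ?_, map_one _, fun s _ => map_one s, ?_, ?_⟩
      · rw [Subgroup.relIndex_self]
        exact one_dvd p
      · intro s _
        rw [map_one, div_one, sub_self, map_zero]
        exact zero_le
      · intro s hs hs'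
        exact absurd hs hs'

end Fermat.Agent.LLw
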